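import Fermat.Agent.S55.L.H715.Dict1
import Fermat.Agent.S55.Local.H724.Ramification

/-!
# S55, layer L : DICTIONARY core ↔ outer, part 2 : intrinsic local fields   (helper715)

`K` a field of characteristic zero, `A : ValuationSubring K` with `IsLocalRingOfIntegers A`.
The core is used with base `(↥A, K)`; local fields = finite extensions `L / K`.

* `isInt_self_iff : IsInt ↥A K K x ↔ x ∈ A`,
  `mem_intUnits_self_iff : u ∈ intUnits ↥A K K ↔ u ∈ A.unitGroup`,
  `isUnif_self_iff : IsUnif ↥A K K π ↔ IsUniformizer A π`  (no uniqueness needed);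
* `eq_intVS_of_unique` : given `RingOfIntegersUniqueSpec`, every ring of integers `B` of `L` is
  `intVS ↥A K L`; hence `mem_iff_isInt`, `mem_unitGroup_iff_mem_intUnits`,
  `isUniformizer_iff_isUnif` for an arbitrary ring of integers `B` of `L`;
* `isUnramifiedExt_of_isUnram : IsUnram ↥A K L K → IsUnramifiedExt K L` (no uniqueness needed),
  `isUnram_of_isUnramifiedExt` (with uniqueness), `isUnramifiedExt_iff_isUnram`.
-/

set_option autoImplicit false
set_option linter.unusedSectionVars false
set_option linter.style.haveILetI false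

namespace Fermat.Agent.S55.L.H715

open Fermat.Agent.S55.Local Fermat.Agent.S55.Local.H715 IsLocalRing

section Self

variable {K : Type} [Field K] (A : ValuationSubring K)

/-- Over the base `(↥A, K)`, the integers of `K` itself are `A`. -/
theorem isInt_self_iff (x : K) : IsInt (↥A) K K x ↔ x ∈ A := by
  rw [isInt_iff (↥A) K K x]
  constructor
  · intro h
    obtain ⟨y, hy⟩ := IsIntegrallyClosed.isIntegral_iff.1 h
    rw [← hy]
    exact y.2
  · intro h
    have : x = algebraMap (↥A) K ⟨x, h⟩ := rfl
    rw [this]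
    exact isIntegral_algebraMap

theorem mem_intUnits_self_iff (u : Kˣ) : u ∈ intUnits (↥A) K K ↔ u ∈ A.unitGroup := by
  rw [mem_unitGroup_iff_mem_and_inv_mem, mem_intUnits, isInt_self_iff, isInt_self_iff]

theorem isUnif_self_iff [IsDiscreteValuationRing A] (π : Kˣ) :
    IsUnif (↥A) K K π ↔ IsUniformizer A (π : K) := by
  rw [isUniformizer_iff_aux]
  unfold IsUnif
  simp only [mem_intUnits_self_iff, isInt_self_iff]

end Self

section Ext

variable {K : Type} [Field K] [CharZero K] (A : ValuationSubring K)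
  [IsDiscreteValuationRing A] [IsAdicComplete (IsLocalRing.maximalIdeal A) A]
  [Finite (IsLocalRing.ResidueField A)]
  (L : Type) [Field L] [Algebra K L] [FiniteDimensional K L]

/-- The hypotheses of this section, packaged. -/
theorem isLocalRingOfIntegers_self {K : Type} [Field K] (A : ValuationSubring K)
    [IsDiscreteValuationRing A] [IsAdicComplete (IsLocalRing.maximalIdeal A) A]
    [Finite (IsLocalRing.ResidueField A)] : IsLocalRingOfIntegers A :=
  ⟨inferInstance, inferInstance, inferInstance⟩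

/-- `K` is a local field in the sense of the outer layer. -/
theorem isLocalFld_self {K : Type} [Field K] [CharZero K] (A : ValuationSubring K)
    [IsDiscreteValuationRing A] [IsAdicComplete (IsLocalRing.maximalIdeal A) A]
    [Finite (IsLocalRing.ResidueField A)] : IsLocalFld K :=
  ⟨inferInstance, ⟨A, isLocalRingOfIntegers_self A⟩⟩

/-- A finite extension of `K` is a local field in the sense of the outer layer
(with ring of integers `intVS ↥A K L`). -/
theorem isLocalFld_ext {K : Type} [Field K] [CharZero K] (A : ValuationSubring K)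
    [IsDiscreteValuationRing A] [IsAdicComplete (IsLocalRing.maximalIdeal A) A]
    [Finite (IsLocalRing.ResidueField A)]
    (L : Type) [Field L] [Algebra K L] [FiniteDimensional K L] : IsLocalFld L :=
  ⟨charZero_of_injective_algebraMap (algebraMap K L).injective,
    ⟨intVS (↥A) K L, isLocalRingOfIntegers_intVS (↥A) K L⟩⟩

/-- Given uniqueness of the ring of integers, every ring of integers of `L` is the integral
closure of `A`. -/
theorem eq_intVS_of_unique (h0 : RingOfIntegersUniqueSpec) (B : ValuationSubring L)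
    (hB : IsLocalRingOfIntegers B) : B = intVS (↥A) K L := by
  haveI : IsLocalFld L := isLocalFld_ext A L
  exact h0 L B _ hB (isLocalRingOfIntegers_intVS (↥A) K L)

theorem mem_iff_isInt (h0 : RingOfIntegersUniqueSpec) (B : ValuationSubring L)
    (hB : IsLocalRingOfIntegers B) (x : L) : x ∈ B ↔ IsInt (↥A) K L x := by
  rw [eq_intVS_of_unique A L h0 B hB, mem_intVS_iff]

theorem mem_unitGroup_iff_mem_intUnits (h0 : RingOfIntegersUniqueSpec) (B : ValuationSubring L)
    (hB : IsLocalRingOfIntegers B) (u : Lˣ) : u ∈ B.unitGroup ↔ u ∈ intUnits (↥A) K L := by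
  rw [eq_intVS_of_unique A L h0 B hB, mem_unitGroup_intVS_iff]

theorem isUniformizer_iff_isUnif (h0 : RingOfIntegersUniqueSpec) (B : ValuationSubring L)
    (hB : IsLocalRingOfIntegers B) (π : Lˣ) : IsUniformizer B (π : L) ↔ IsUnif (↥A) K L π := by
  rw [eq_intVS_of_unique A L h0 B hB, isUniformizer_intVS_iff]

/-- Core unramified (`Lˣ = Kˣ · U_L`) implies outer unramified (a uniformizer of `K` is a
uniformizer of `L`).  No uniqueness needed. -/
theorem isUnramifiedExt_of_isUnram (h : IsUnram (↥A) K L K) : IsUnramifiedExt K L := by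
  obtain ⟨ϖ, hϖ⟩ := IsDiscreteValuationRing.exists_irreducible (↥A)
  have hπ0 : (ϖ : K) ≠ 0 := fun h0 => hϖ.ne_zero (Subtype.ext h0)
  have hπA : IsUniformizer A (ϖ : K) := ⟨ϖ.2, hϖ⟩
  set πu : Kˣ := Units.mk0 (ϖ : K) hπ0 with hπu
  have hunifK : IsUnif (↥A) K K πu := (isUnif_self_iff A πu).2 hπA
  refine ⟨A, intVS (↥A) K L, (ϖ : K), isLocalRingOfIntegers_self A,
    isLocalRingOfIntegers_intVS (↥A) K L, hπA, ?_⟩
  have hcoe : algebraMap K L (ϖ : K) = ((unitsIncl L K πu : Lˣ) : L) := rfl
  rw [hcoe, isUniformizer_intVS_iff]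
  refine ⟨?_, ?_, ?_⟩
  · exact (H724.isInt_algebraMap_iff724 (↥A) K K L (πu : K)).2 hunifK.1
  · intro hmem
    exact hunifK.2.1 ((H724.unitsIncl_mem_intUnits_iff724 (↥A) K K L πu).1 hmem)
  · intro x
    obtain ⟨y, hy⟩ := h x
    obtain ⟨n, hn⟩ := hunifK.2.2 y
    refine ⟨n, ?_⟩
    have h1 : unitsIncl L K (y * πu ^ (-n)) ∈ intUnits (↥A) K L :=
      (H724.unitsIncl_mem_intUnits_iff724 (↥A) K K L _).2 hn
    have h2 : x * (unitsIncl L K πu) ^ (-n) =
        (x * (unitsIncl L K y)⁻¹) * unitsIncl L K (y * πu ^ (-n)) := by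
      rw [map_mul, map_zpow]
      group
    rw [h2]
    exact (intUnits (↥A) K L).mul_mem hy h1

/-- Outer unramified implies core unramified, given uniqueness of the ring of integers. -/
theorem isUnram_of_isUnramifiedExt (h0 : RingOfIntegersUniqueSpec) (h : IsUnramifiedExt K L) :
    IsUnram (↥A) K L K := by
  obtain ⟨A', B', π, hA', hB', hπA, hπB⟩ := h
  haveI : IsLocalFld K := isLocalFld_self A
  have e2 : B' = intVS (↥A) K L := eq_intVS_of_unique A L h0 B' hB'
  rw [e2] at hπB
  have hπ0 : π ≠ 0 := by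
    obtain ⟨hmem, hirr⟩ := hπA
    intro h0'
    apply hirr.ne_zero
    exact Subtype.ext h0'
  set πu : Kˣ := Units.mk0 π hπ0 with hπu
  have hcoe : algebraMap K L π = ((unitsIncl L K πu : Lˣ) : L) := rfl
  rw [hcoe, isUniformizer_intVS_iff] at hπB
  intro x
  obtain ⟨n, hn⟩ := hπB.2.2 x
  refine ⟨πu ^ n, ?_⟩
  rwa [map_zpow, ← zpow_neg]

theorem isUnramifiedExt_iff_isUnram (h0 : RingOfIntegersUniqueSpec) :
    IsUnramifiedExt K L ↔ IsUnram (↥A) K L K :=
  ⟨isUnram_of_isUnramifiedExt A L h0, isUnramifiedExt_of_isUnram A L⟩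

end Ext

end Fermat.Agent.S55.L.H715
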