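import Fermat.Agent.S55.L.H715.Dict2

/-!
# S55, layer L : DICTIONARY core ↔ outer, part 3 : adapters for unramified extensions (helper715)

* `unramifiedExists_of_local : Local.ExistsUnramExtStatement → UnramifiedExistsSpec`
  (core UR5 ⇒ outer L-A2a).
-/

set_option autoImplicit false
set_option linter.unusedSectionVars false
set_option linter.style.haveILetI false

namespace Fermat.Agent.S55.L.H715

open Fermat.Agent.S55.Local Fermat.Agent.S55.Local.H715 IsLocalRing

/-- **Adapter UR5 ⇒ L-A2a**: existence of the unramified extension of each degree. -/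
theorem unramifiedExists_of_local (hUR5 : ExistsUnramExtStatement) : UnramifiedExistsSpec := by
  intro K _ hK n hn
  obtain ⟨A, hA1, hA2, hA3⟩ := hK.exists_ringOfIntegers
  haveI := hK.charZero
  haveI := hA1
  haveI := hA2
  haveI := hA3
  obtain ⟨N, iN, iF, iK, iL, t1, t2, t3, fd, gal, hunram, hrank⟩ := hUR5 (↥A) K K K n hn
  have e1 : iF = iL := Algebra.algebra_ext _ _ (fun r => by
    have := @IsScalarTower.algebraMap_apply K K N _ _ _ _ iL iF t2 r
    simpa using this)
  have e2 : iK = iL := Algebra.algebra_ext _ _ (fun r => by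
    have := @IsScalarTower.algebraMap_apply K K N _ _ _ _ iL iK t3 r
    simpa using this)
  subst e1
  subst e2
  exact ⟨N, iN, iK, fd, isUnramifiedExt_of_isUnram A N hunram, hrank⟩

end Fermat.Agent.S55.L.H715
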