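import Fermat.Agent.S55.L.Adapter
import Fermat.Agent.S55.L.H715.Dict3
import Fermat.Agent.S55.L.RingOfIntegersUnique775
import Fermat.Agent.S55.L.FiniteExt286
import Fermat.Agent.S55.L.UnramNormUnits423
import Fermat.Agent.S55.L.D1H301
import Fermat.Agent.S55.L.Inst63
import Fermat.Agent.S55.Local.H964.T5Closed
import Fermat.Agent.S55.T.All

/-!
# S55, layer L (outer): the interface statements of `L/Spec*.lean` that are CLOSED on main

One import for consumers (layers KL, G, D).  Every theorem has EXACTLY the type of the frozen
outer spec and is assembled from landed, sorry-free leaves (core `Local.*` via `L/Adapter.lean`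
and the dictionary `L/H715/Dict*.lean`, layer T via `T/All.lean`).   Integration: helper715.

Closed here: `RingOfIntegersUniqueSpec`, `FiniteExtSpec`, `H2CyclicSpec`, `H2CardLeSpec`,
`H2CardCyclicSpec`, `NormIndexCyclicSpec`, `ClassModuleSpec`, `H3Spec`, `NormIndexSpec`,
`UnramifiedExistsSpec`, `UnramifiedNormUnitsSpec`, `PadicInstSpec`, `PadicExtInstSpec`.
Not yet here: `UnramifiedCyclicSpec`, `UnramifiedUniqueSpec`, `InvSpec`, `ExistenceModSpec`.
-/

set_option autoImplicit false

namespace Fermat.Agent.S55.L.Closed

open Fermat.Agent.S55 Fermat.Agent.S55.L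

theorem ringOfIntegersUnique : RingOfIntegersUniqueSpec := ringOfIntegersUnique775
theorem finiteExt : FiniteExtSpec := finiteExt286
theorem h2Cyclic : H2CyclicSpec := h2Cyclic_of_local Local.H964.h2Cyclic
theorem h2CardLe : H2CardLeSpec := h2CardLe_of_local Local.H964.h2CardDvd
theorem h2CardCyclic : H2CardCyclicSpec := h2CardCyclic_of_local Local.Closed.cyclicH2Card
theorem normIndexCyclic : NormIndexCyclicSpec :=
  normIndexCyclic_of_local Local.Closed.cyclicNormIndex
theorem classModule : ClassModuleSpec := classModule_of_local' Local.H964.h2Cyclic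
theorem h3 : H3Spec := h3Spec_of_h301 classModule T.All.tateH3
theorem normIndex : NormIndexSpec := normIndexSpec_of_h301 classModule T.All.tateReciprocity
theorem unramifiedExists : UnramifiedExistsSpec :=
  H715.unramifiedExists_of_local Local.H964.existsUnramExt
theorem unramifiedNormUnits : UnramifiedNormUnitsSpec :=
  H423.unramifiedNormUnits_of423 ringOfIntegersUnique
theorem padicInst : PadicInstSpec := padicInst63
theorem padicExtInst : PadicExtInstSpec := padicExtInst_of63 ringOfIntegersUnique

end Fermat.Agent.S55.L.Closed
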