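import Fermat.Agent.S55.T.Spec
import Fermat.Agent.S55.E1.Defs
import Fermat.Agent.S55.L.D1H301

/-!
# S55, layer L (helper715): transport of class modules along equivariant isomorphisms

`e : G ≃* G'`, `A : Rep ℤ G`, `B : Rep ℤ G'`, `φ : A.V ≃+ B.V` with `φ (g • x) = e g • φ x`.
For every subgroup `H ≤ G` and every `n`, `Hⁿ(H, A) ≅ Hⁿ(e H, B)` (`subIso715`); consequently
the hypotheses of the class-module criterion transport from `B` to `A`, and so does Hilbert 90
(`isZero_H1_of_equiv715`).  Also: a class module (layer T) is a class module at every `p`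
(engine E1), `isClassModuleAt_of_isClassModule715`.
-/

set_option autoImplicit false

namespace Fermat.Agent.S55.L.H715

open CategoryTheory groupCohomology

section Generic

variable {G G' : Type} [Group G] [Group G'] (e : G ≃* G') {A : Rep.{0} ℤ G} {B : Rep.{0} ℤ G'}
  (φ : A.V ≃+ B.V)

/-- An additive equivalence between the underlying groups of two `ℤ`-representations, as a
`ℤ`-linear equivalence for the module structures carried by the representations. -/
noncomputable def linOfAdd715 :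
    @LinearEquiv ℤ ℤ _ _ (RingHom.id ℤ) (RingHom.id ℤ) _ _ A.V B.V _ _ A.hV2 B.hV2 :=
  @LinearEquiv.mk ℤ ℤ _ _ (RingHom.id ℤ) (RingHom.id ℤ) _ _ A.V B.V _ _ A.hV2 B.hV2
    (@LinearMap.mk ℤ ℤ _ _ (RingHom.id ℤ) A.V B.V _ _ A.hV2 B.hV2 φ.toAddMonoidHom
      (fun c x => by
        have h := @map_intCast_smul A.V B.V _ _ _ _ _ φ.toAddMonoidHom ℤ ℤ _ _ A.hV2 B.hV2 c x
        simpa using h))
    φ.symm φ.left_inv φ.right_inv

@[simp] theorem linOfAdd715_apply (x : A.V) : linOfAdd715 φ x = φ x := rfl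

/-- `Hⁿ(H, A) ≅ Hⁿ(e H, B)`. -/
noncomputable def subIso715 (hφ : ∀ (g : G) (x : A.V), φ (A.ρ g x) = B.ρ (e g) (φ x))
    (H : Subgroup G) (n : ℕ) :
    groupCohomology (T.resSub A H) n ≅
      groupCohomology (T.resSub B (H.map e.toMonoidHom)) n :=
  groupCohomology.mapIso (A := T.resSub B (H.map e.toMonoidHom)) (B := T.resSub A H)
    (e.subgroupMap H) (linOfAdd715 φ)
    (fun g => DFunLike.ext _ _ (fun x => hφ g.1 x)) n

/-- Hilbert 90 (vanishing of `H¹` of all subgroups) transports along an equivariant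
isomorphism. -/
theorem isZero_H1_of_equiv715 (hφ : ∀ (g : G) (x : A.V), φ (A.ρ g x) = B.ρ (e g) (φ x))
    (h : ∀ H' : Subgroup G', Limits.IsZero (groupCohomology (T.resSub B H') 1))
    (H : Subgroup G) : Limits.IsZero (groupCohomology (T.resSub A H) 1) :=
  (h (H.map e.toMonoidHom)).of_iso (subIso715 e φ hφ H 1)

theorem subsingleton_H1_of_equiv715
    (hφ : ∀ (g : G) (x : A.V), φ (A.ρ g x) = B.ρ (e g) (φ x))
    (h : ∀ H' : Subgroup G', Subsingleton (groupCohomology (T.resSub B H') 1))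
    (H : Subgroup G) : Subsingleton (groupCohomology (T.resSub A H) 1) :=
  haveI := h (H.map e.toMonoidHom)
  (subIso715 e φ hφ H 1).toLinearEquiv.toEquiv.subsingleton

theorem card_map_equiv715 (H : Subgroup G) :
    Nat.card (H.map e.toMonoidHom) = Nat.card H :=
  (Nat.card_congr (e.subgroupMap H).toEquiv).symm

theorem nonempty_H2_equiv_of_equiv715
    (hφ : ∀ (g : G) (x : A.V), φ (A.ρ g x) = B.ρ (e g) (φ x))
    (h : ∀ H' : Subgroup G',
      Nonempty (groupCohomology (T.resSub B H') 2 ≃+ ZMod (Nat.card H')))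
    (H : Subgroup G) :
    Nonempty (groupCohomology (T.resSub A H) 2 ≃+ ZMod (Nat.card H)) := by
  obtain ⟨f⟩ := h (H.map e.toMonoidHom)
  exact ⟨((subIso715 e φ hφ H 2).toLinearEquiv.toAddEquiv.trans f).trans
    (ZMod.ringEquivCongr (card_map_equiv715 e H)).toAddEquiv⟩

end Generic

section Cyclic

/-- An abelian group generated by `g` with annihilator `m ℤ` (`m > 0`) has `m` elements, and
every element is a natural multiple of `g`. -/
theorem cyclic_aux715 {M : Type} [AddCommGroup M] (g : M) (m : ℕ) (hm : 0 < m)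
    (h2 : ∀ x : M, ∃ c : ℤ, x = c • g)
    (h3 : ∀ c : ℤ, c • g = 0 → ∃ d : ℤ, c = (m : ℤ) * d)
    (h4 : (m : ℤ) • g = 0) :
    Nat.card M = m ∧ ∀ x : M, ∃ n : ℕ, x = n • g := by
  have h4' : m • g = 0 := by
    rw [← natCast_zsmul]
    exact h4
  have h2' : ∀ x : M, ∃ n : ℕ, x = n • g := by
    intro x
    obtain ⟨c, hc⟩ := h2 x
    refine ⟨(c % (m : ℤ)).toNat, ?_⟩
    have hnn : 0 ≤ c % (m : ℤ) := Int.emod_nonneg _ (by exact_mod_cast hm.ne')
    have e2 : ((c % (m : ℤ)).toNat : ℤ) = c % (m : ℤ) := Int.toNat_of_nonneg hnn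
    have e1 : c = (c / (m : ℤ)) * (m : ℤ) + c % (m : ℤ) := by
      rw [mul_comm]
      exact (Int.mul_ediv_add_emod c _).symm
    rw [hc, ← natCast_zsmul, e2]
    conv_lhs => rw [e1]
    rw [add_zsmul, mul_zsmul, h4, zsmul_zero, zero_add]
  refine ⟨?_, h2'⟩
  have htop : AddSubgroup.zmultiples g = ⊤ := by
    rw [eq_top_iff]
    intro x _
    obtain ⟨n, hn⟩ := h2' x
    rw [hn]
    exact AddSubgroup.nsmul_mem _ (AddSubgroup.mem_zmultiples g) n
  have hord : addOrderOf g = m := by
    rw [addOrderOf_eq_iff hm]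
    refine ⟨h4', fun j hj hj0 hjg => ?_⟩
    have hj' : (j : ℤ) • g = 0 := by
      rw [natCast_zsmul]
      exact hjg
    obtain ⟨d, hd⟩ := h3 (j : ℤ) hj'
    have hdvd : (m : ℤ) ∣ (j : ℤ) := ⟨d, hd⟩
    have hdvd' : m ∣ j := by exact_mod_cast hdvd
    exact absurd (Nat.le_of_dvd hj0 hdvd') (not_le.2 hj)
  rw [← hord, ← Nat.card_zmultiples, htop]
  exact (Nat.card_congr (AddSubgroup.topEquiv (G := M)).toEquiv).symm

end Cyclic

section ClassModuleAt

variable {G : Type} [Group G] [Finite G] (C : Rep.{0} ℤ G)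

/-- A class module is a class module at every `p`. -/
theorem isClassModuleAt_of_isClassModule715 (p : ℕ) {γ : groupCohomology C 2}
    (hγ : T.IsClassModule C γ) : E1.IsClassModuleAt p C γ := by
  intro H _
  obtain ⟨h1, h2, h3, h4⟩ := hγ H
  obtain ⟨hc, hg⟩ := cyclic_aux715 ((T.resMap C H 2).hom γ) (Nat.card H) Nat.card_pos
    (fun x => by
      obtain ⟨c, hc⟩ := h2 x
      exact ⟨c, hc.trans (int_smul_eq_zsmul _ c _)⟩)
    (fun c hc => h3 c ((int_smul_eq_zsmul _ c _).trans hc))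
    ((int_smul_eq_zsmul _ _ _).symm.trans h4)
  exact ⟨h1, hc, hg⟩

/-- The class-module criterion, delivering a class module at `p`. -/
theorem exists_isClassModuleAt715 (p : ℕ)
    (h1 : ∀ H : Subgroup G, Subsingleton (groupCohomology (T.resSub C H) 1))
    (h2 : ∀ H : Subgroup G, Nonempty (groupCohomology (T.resSub C H) 2 ≃+ ZMod (Nat.card H))) :
    ∃ γ : groupCohomology C 2, E1.IsClassModuleAt p C γ := by
  obtain ⟨γ, hγ⟩ := exists_isClassModule_h301 C h1 h2
  exact ⟨γ, isClassModuleAt_of_isClassModule715 C p hγ⟩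

end ClassModuleAt

end Fermat.Agent.S55.L.H715
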