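import Fermat.Agent.S55.Spec.Datum
import Fermat.Agent.S55.Bridge.H175.TowerDict
import Fermat.Agent.S55.Bridge.LocalDiv
import Fermat.Agent.S55.L.H715.OuterClosed
import Fermat.Agent.S55.L.H715.Transport
import Fermat.Agent.S55.Local.H717.H2CardDvd

/-!
# S55: `Tow.LocalSpec p` (the TARGET of layer L for the engine E1), CLOSED

`localSpec (p) (hp : 0 < p) : Tow.LocalSpec p`, unconditional (Mathlib + Prelude only):

* GD2 (class module at `p` on `L.locUnits q`): `L.Closed.classModule` for `(ℚ_q, F_q)`
  transported along helper175's dictionary `decEquiv`, `locUnitsEquiv` (`Transport.lean`);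
* LH90: Hilbert 90 for all subgroups of `Gal(F_q/ℚ_q)`, transported;
* LDIV: helper655's `Bridge.localSpec_ldiv`.

NB `Tow.LocalSpec 0` is false (LDIV), hence the hypothesis `0 < p`.
-/

set_option autoImplicit false
set_option linter.style.haveILetI false

namespace Fermat.Agent.S55.L.H715

open CategoryTheory groupCohomology Fermat.Agent.S55 Fermat.Agent.S55.Bridge.H175

section Level

variable {S : Finset Nat.Primes} (L : Tow.Level S) (q : Nat.Primes)

/-- **LH90, all subgroups**: `H¹(H, F_qˣ) = 0` for every subgroup `H ≤ Gal(F_q/ℚ_q)`. -/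
theorem isZero_H1_locUnits715 (H : Subgroup (L.Dec q)) :
    Limits.IsZero (groupCohomology (T.resSub (L.locUnits q) H) 1) := by
  letI : Fact (q : ℕ).Prime := ⟨q.2⟩
  haveI := level_finiteDimensional L
  haveI := finiteDimensional_primeLocalLevel q L.F
  exact isZero_H1_of_equiv715 (decEquiv L q) (locUnitsEquiv L q) (locUnitsEquiv_ρ L q)
    (fun H' => Local.H717.isZero_H1_resSub (K := ℚ_[(q : ℕ)]) (L := primeLocalLevel q L.F) H') H

/-- **GD2**: `F_qˣ` is a class module (at every `p`) for `Gal(F_q/ℚ_q)`. -/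
theorem exists_isClassModule_locUnits715 :
    ∃ γ : groupCohomology (L.locUnits q) 2, T.IsClassModule (L.locUnits q) γ := by
  letI : Fact (q : ℕ).Prime := ⟨q.2⟩
  haveI := level_finiteDimensional L
  haveI := level_normal L
  haveI := finiteDimensional_primeLocalLevel q L.F
  haveI := isGalois_primeLocalLevel q L.F
  haveI : Fermat.Agent.S55.L.IsLocalFld ℚ_[(q : ℕ)] :=
    Fermat.Agent.S55.L.Closed.padicInst (q : ℕ)
  have hCM := Fermat.Agent.S55.L.Closed.classModule ℚ_[(q : ℕ)] (primeLocalLevel q L.F)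
  exact exists_isClassModule_h301 (L.locUnits q)
    (subsingleton_H1_of_equiv715 (decEquiv L q) (locUnitsEquiv L q) (locUnitsEquiv_ρ L q)
      (fun H' => (hCM H').1))
    (nonempty_H2_equiv_of_equiv715 (decEquiv L q) (locUnitsEquiv L q) (locUnitsEquiv_ρ L q)
      (fun H' => (hCM H').2))

theorem exists_isClassModuleAt_locUnits715 (p : ℕ) :
    ∃ γ : groupCohomology (L.locUnits q) 2, E1.IsClassModuleAt p (L.locUnits q) γ := by
  obtain ⟨γ, hγ⟩ := exists_isClassModule_locUnits715 L q
  exact ⟨γ, isClassModuleAt_of_isClassModule715 (L.locUnits q) p hγ⟩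

end Level

/-- **`Tow.LocalSpec p`** for every `p > 0`: the target of layer L, unconditionally. -/
theorem localSpec (p : ℕ) (hp : 0 < p) : Tow.LocalSpec p :=
  ⟨fun _ L q => exists_isClassModuleAt_locUnits715 L q p,
   fun _ _ L' h q => isZero_H1_locUnits715 L' q (Tow.Level.projDec h q).ker,
   Bridge.localSpec_ldiv p hp⟩

end Fermat.Agent.S55.L.H715
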