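import Fermat.Agent.S55.L.SpecInv
import Fermat.Agent.S55.Local.Spec
import Fermat.Agent.S55.Local.H715.Integers

/-!
# S55, layer L : DICTIONARY between the core (`Fermat.Agent.S55.Local`) and the outer layer
(`Fermat.Agent.S55.L`), part 1 : a fixed base `(A, F)`   (helper715)

Core vocabulary (`Local/Defs.lean`): base `(A, F)` (complete DVR with finite residue field and its
fraction field), `IsInt A F L x`, `intUnits A F L`, `IsUnif A F L ϖ`, `IsUnram A F L K`.
Outer vocabulary (`L/Spec.lean`, `L/SpecInv.lean`): `ValuationSubring`, `IsLocalRingOfIntegers B`,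
`B.unitGroup`, `IsUniformizer B π`, `IsUnramifiedExt K L`.

This file: for a finite extension `L / F`
* `intVS A F L : ValuationSubring L`, the ring of integers (integral closure of `A`), with
  `mem_intVS_iff : x ∈ intVS A F L ↔ IsInt A F L x` (by `Iff.rfl`),
* `isLocalRingOfIntegers_intVS : IsLocalRingOfIntegers (intVS A F L)`,
* `mem_unitGroup_intVS_iff : u ∈ (intVS A F L).unitGroup ↔ u ∈ intUnits A F L`,
* `isUniformizer_intVS_iff : IsUniformizer (intVS A F L) π ↔ IsUnif A F L π`.
-/

set_option autoImplicit false
set_option linter.unusedSectionVars false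
set_option linter.style.haveILetI false

namespace Fermat.Agent.S55.L.H715

open Fermat.Agent.S55.Local Fermat.Agent.S55.Local.H715 IsLocalRing

section Base

variable (A F : Type) [CommRing A] [IsDomain A] [IsDiscreteValuationRing A]
  [IsAdicComplete (IsLocalRing.maximalIdeal A) A] [Finite (IsLocalRing.ResidueField A)]
  [Field F] [CharZero F] [Algebra A F] [IsFractionRing A F]
  (L : Type) [Field L] [Algebra F L] [FiniteDimensional F L]

/-- (= LF1) the integers of a local field form a valuation ring. -/
lemma isInt_or_isInt_inv (x : L) : IsInt A F L x ∨ IsInt A F L x⁻¹ := by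
  letI := algAL A F L
  haveI := isScalarTower_algAL A F L
  haveI := isDiscreteValuationRing_OL A F L
  haveI := isFractionRing_OL A F L
  rcases ValuationRing.isInteger_or_isInteger (integralClosure A L) x with ⟨y, hy⟩ | ⟨y, hy⟩
  · left
    have : (y : L) = x := hy
    rw [← this]
    exact y.2
  · right
    have : (y : L) = x⁻¹ := hy
    rw [← this]
    exact y.2

/-- The ring of integers of `L` (integral closure of `A`) as a valuation subring of `L`. -/
noncomputable def intVS : ValuationSubring L :=
  letI := algAL A F L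
  { (integralClosure A L).toSubring with
    mem_or_inv_mem' := fun x => isInt_or_isInt_inv A F L x }

lemma mem_intVS_iff (x : L) : x ∈ intVS A F L ↔ IsInt A F L x := Iff.rfl

/-- The ring of integers is a complete DVR with finite residue field. -/
theorem isLocalRingOfIntegers_intVS : IsLocalRingOfIntegers (intVS A F L) :=
  letI := algAL A F L
  haveI := isScalarTower_algAL A F L
  ⟨isDiscreteValuationRing_OL A F L, isAdicComplete_OL A F L, finite_residueField_OL A F L⟩

lemma mem_unitGroup_iff_mem_and_inv_mem {M : Type} [Field M] (B : ValuationSubring M) (u : Mˣ) :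
    u ∈ B.unitGroup ↔ (u : M) ∈ B ∧ ((u⁻¹ : Mˣ) : M) ∈ B := by
  rw [ValuationSubring.mem_unitGroup_iff, ← ValuationSubring.valuation_le_one_iff,
    ← ValuationSubring.valuation_le_one_iff]
  constructor
  · intro h
    refine ⟨h.le, ?_⟩
    rw [Units.val_inv_eq_inv_val, map_inv₀, h, inv_one]
  · rintro ⟨h1, h2⟩
    rw [Units.val_inv_eq_inv_val, map_inv₀] at h2
    have hne : B.valuation (u : M) ≠ 0 := (map_ne_zero _).2 u.ne_zero
    refine le_antisymm h1 ?_
    have := (inv_le_one₀ (zero_lt_iff.2 hne)).1 h2
    exact this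

/-- Units of the ring of integers: outer `unitGroup` = core `intUnits`. -/
theorem mem_unitGroup_intVS_iff (u : Lˣ) :
    u ∈ (intVS A F L).unitGroup ↔ u ∈ intUnits A F L := by
  rw [mem_unitGroup_iff_mem_and_inv_mem, mem_intUnits, mem_intVS_iff, mem_intVS_iff]

end Base

section Generic

variable {M : Type} [Field M] (B : ValuationSubring M)

/-- In a valuation subring which is a DVR: `π` is a uniformizer (irreducible element) iff it is
integral, not a unit, and every `x : Mˣ` is a unit times a power of `π`. -/
theorem isUniformizer_iff_aux [IsDiscreteValuationRing B] (π : Mˣ) :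
    IsUniformizer B (π : M) ↔
      ((π : M) ∈ B ∧ π ∉ B.unitGroup ∧ ∀ x : Mˣ, ∃ n : ℤ, x * π ^ (-n) ∈ B.unitGroup) := by
  have hπ0 : B.valuation (π : M) ≠ 0 := (map_ne_zero _).2 π.ne_zero
  constructor
  · rintro ⟨h, hirr⟩
    refine ⟨h, ?_, ?_⟩
    · intro hu
      rw [ValuationSubring.mem_unitGroup_iff] at hu
      exact hirr.not_isUnit ((B.valuation_eq_one_iff ⟨π, h⟩).2 hu)
    · have key : ∀ x : Mˣ, (x : M) ∈ B → ∃ n : ℕ, B.valuation (x : M) = B.valuation (π : M) ^ n := by
        intro x hx
        have hy0 : (⟨x, hx⟩ : B) ≠ 0 := fun h0 => x.ne_zero (congrArg Subtype.val h0)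
        obtain ⟨n, u, hu⟩ := IsDiscreteValuationRing.eq_unit_mul_pow_irreducible hy0 hirr
        refine ⟨n, ?_⟩
        have hx_eq : (x : M) = ((u : B) : M) * (π : M) ^ n := by
          have := congrArg Subtype.val hu
          simpa using this
        have hvu : B.valuation ((u : B) : M) = 1 := (B.valuation_eq_one_iff (u : B)).1 u.isUnit
        rw [hx_eq, map_mul, map_pow, hvu, one_mul]
      intro x
      rcases B.mem_or_inv_mem (x : M) with hx | hx
      · obtain ⟨n, hn⟩ := key x hx
        refine ⟨n, ?_⟩
        rw [ValuationSubring.mem_unitGroup_iff, Units.val_mul, Units.val_zpow_eq_zpow_val, map_mul,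
          map_zpow₀, hn, zpow_neg, zpow_natCast]
        exact mul_inv_cancel₀ (pow_ne_zero _ hπ0)
      · obtain ⟨n, hn⟩ := key x⁻¹ (by rwa [Units.val_inv_eq_inv_val])
        refine ⟨-(n : ℤ), ?_⟩
        rw [Units.val_inv_eq_inv_val, map_inv₀] at hn
        rw [ValuationSubring.mem_unitGroup_iff, Units.val_mul, Units.val_zpow_eq_zpow_val, map_mul,
          map_zpow₀, neg_neg, zpow_natCast, ← hn]
        exact mul_inv_cancel₀ ((map_ne_zero _).2 x.ne_zero)
  · rintro ⟨h, hnu, hall⟩
    refine ⟨h, ?_⟩
    rw [IsDiscreteValuationRing.irreducible_iff_uniformizer]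
    have hvπ : B.valuation (π : M) < 1 :=
      lt_of_le_of_ne ((B.valuation_le_one_iff _).2 h)
        (fun h1 => hnu ((B.mem_unitGroup_iff π).2 h1))
    apply le_antisymm
    · intro y hy
      rw [Ideal.mem_span_singleton]
      by_cases hy0 : y = 0
      · rw [hy0]; exact dvd_zero _
      have hyM : (y : M) ≠ 0 := fun h0 => hy0 (Subtype.ext h0)
      have hvy : B.valuation (y : M) < 1 :=
        (B.mem_nonunits_iff).1 (ValuationSubring.coe_mem_nonunits_iff.2 hy)
      obtain ⟨n, hn⟩ := hall (Units.mk0 (y : M) hyM)
      rw [ValuationSubring.mem_unitGroup_iff, Units.val_mul, Units.val_zpow_eq_zpow_val, map_mul,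
        map_zpow₀, Units.val_mk0, zpow_neg] at hn
      have hvy' : B.valuation (y : M) = B.valuation (π : M) ^ n := by
        have h2 := congrArg (· * B.valuation (π : M) ^ n) hn
        simp only [one_mul] at h2
        rwa [mul_assoc, inv_mul_cancel₀ (zpow_ne_zero _ hπ0), mul_one] at h2
      have hdiv : (y : M) / (π : M) ∈ B := by
        rw [← B.valuation_le_one_iff, map_div₀, hvy']
        rcases n with k | k
        · rcases k with _ | j
          · exfalso
            rw [hvy'] at hvy
            simp at hvy
          · rw [Int.ofNat_eq_natCast, zpow_natCast, pow_succ,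
              mul_div_assoc, div_self hπ0, mul_one]
            exact pow_le_one₀ zero_le hvπ.le
        · exfalso
          rw [hvy', zpow_negSucc] at hvy
          have h3 : B.valuation (π : M) ^ (k + 1) ≤ 1 := pow_le_one₀ zero_le hvπ.le
          have h4 : (1 : B.ValueGroup) ≤ (B.valuation (π : M) ^ (k + 1))⁻¹ :=
            (one_le_inv₀ (zero_lt_iff.2 (pow_ne_zero _ hπ0))).2 h3
          exact absurd hvy (not_lt.2 h4)
      refine ⟨⟨(y : M) / (π : M), hdiv⟩, Subtype.ext ?_⟩
      show (y : M) = (π : M) * ((y : M) / (π : M))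
      field_simp
    · rw [Ideal.span_singleton_le_iff_mem]
      exact ValuationSubring.coe_mem_nonunits_iff.1 ((B.mem_nonunits_iff).2 hvπ)

end Generic

section Base2

variable (A F : Type) [CommRing A] [IsDomain A] [IsDiscreteValuationRing A]
  [IsAdicComplete (IsLocalRing.maximalIdeal A) A] [Finite (IsLocalRing.ResidueField A)]
  [Field F] [CharZero F] [Algebra A F] [IsFractionRing A F]
  (L : Type) [Field L] [Algebra F L] [FiniteDimensional F L]

/-- Uniformizers: outer `IsUniformizer` = core `IsUnif`. -/
theorem isUniformizer_intVS_iff (π : Lˣ) :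
    IsUniformizer (intVS A F L) (π : L) ↔ IsUnif A F L π := by
  haveI : IsDiscreteValuationRing (intVS A F L) := (isLocalRingOfIntegers_intVS A F L).1
  rw [isUniformizer_iff_aux]
  unfold IsUnif
  simp only [mem_unitGroup_intVS_iff, mem_intVS_iff]

end Base2

end Fermat.Agent.S55.L.H715
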